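-- Marker file of the integration seat (helper99). Intentionally contains no declarations.
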